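import Fermat.Agent.Lib.RR.H439.Pencil
import Fermat.Agent.Lib.RR.H439.StrongApprox
import Fermat.Agent.S37.H940.PlaceBasic

/-!
# S37 / RIM-LPSEP (helper819) — the generic Riemann–Roch core

`[FF1 K F]`, `K` infinite, `T` a finite set of places, `Q₀ ∉ T` one more place.

* `exists_localParam` : for `Q ∈ T` there is `z ∈ F`, regular outside `Q₀`, with
  `ord_Q z = 1` and `ord_{Q'} z = 0` for the other `Q' ∈ T`.
* `exists_separating` : there is `z ∈ F`, regular outside `Q₀`, taking pairwise distinct values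
  at the places of `T`.
-/

set_option autoImplicit false

noncomputable section

open AlgebraicCurve

namespace Fermat.Agent.S37.H819

open Fermat.Agent.Lib.RR Fermat.Agent.Lib.RR.H439 Fermat.Agent.S37.H940

variable {K F : Type*} [Field K] [Field F] [Algebra K F] [FF1 K F]

/-- **local parameter with prescribed behaviour on a finite set**, regular outside `Q₀`. -/
theorem exists_localParam [Infinite K] (T : Finset (Place K F)) (Q₀ : Place K F) (hQ₀ : Q₀ ∉ T)
    (Q : Place K F) (hQ : Q ∈ T) :
    ∃ z : F, Q.ord z = 1 ∧ (∀ Q' ∈ T, Q' ≠ Q → Q'.ord z = 0) ∧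
      ∀ v : Place K F, v ≠ Q₀ → 0 ≤ v.ord z := by
  classical
  have hQQ₀ : Q ≠ Q₀ := fun h => hQ₀ (h ▸ hQ)
  set n : ℕ := 2 * genusFF K F + 1 with hn
  set E : Divisor K F := n • prim Q₀ - prim Q with hE
  have hdeg : 2 * (genusFF K F : ℤ) ≤ Divisor.degree E := by
    rw [hE, map_sub, map_nsmul, degree_prim', degree_prim', hn]
    simp only [nsmul_eq_mul, mul_one]
    push_cast
    omega
  obtain ⟨f, hf, hf0, hford⟩ := exists_mem_L_forall_ord_eq hdeg T
  have hEv : ∀ v : Place K F, v ≠ Q₀ → E v = - prim Q v := by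
    intro v hv
    rw [hE]
    simp only [Finsupp.coe_sub, Pi.sub_apply, Finsupp.coe_smul, Pi.smul_apply,
      prim_apply_of_ne hv, smul_zero, zero_sub]
  refine ⟨f, ?_, ?_, ?_⟩
  · rw [hford Q hQ, hEv Q hQQ₀, prim_apply_self]
    simp
  · intro Q' hQ' hne
    have hQ'Q₀ : Q' ≠ Q₀ := fun h => hQ₀ (h ▸ hQ')
    rw [hford Q' hQ', hEv Q' hQ'Q₀, prim_apply_of_ne hne]
    simp
  · intro v hv
    have h := (mem_L_iff.mp hf v).resolve_left hf0
    rw [hEv v hv, neg_neg] at h
    have h0 : (0 : ℤ) ≤ prim Q v := by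
      by_cases hvQ : v = Q
      · subst hvQ; rw [prim_apply_self]; norm_num
      · rw [prim_apply_of_ne hvQ]
    omega

/-- **separating function**: regular outside `Q₀`, pairwise distinct values on `T`. -/
theorem exists_separating [Infinite K] (T : Finset (Place K F)) (Q₀ : Place K F) (hQ₀ : Q₀ ∉ T) :
    ∃ z : F, (∀ v : Place K F, v ≠ Q₀ → 0 ≤ v.ord z) ∧
      ∀ Q ∈ T, ∀ Q' ∈ T, ∀ a : K, InMax Q (z - algebraMap K F a) →
        InMax Q' (z - algebraMap K F a) → Q = Q' := by
  classical
  -- pairwise distinct constants indexed by `T`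
  let e : ℕ ↪ K := Infinite.natEmbedding K
  let a : Place K F → K := fun v =>
    if h : v ∈ T then e (T.equivFin ⟨v, h⟩ : ℕ) else 0
  have ha : ∀ v ∈ T, ∀ w ∈ T, a v = a w → v = w := by
    intro v hv w hw hvw
    simp only [a, dif_pos hv, dif_pos hw] at hvw
    have h1 := e.injective hvw
    have h2 := Fin.val_injective h1
    have h3 := T.equivFin.injective h2
    exact congrArg Subtype.val h3
  set n : ℕ := 2 * genusFF K F + T.card with hn
  set D : Divisor K F := n • prim Q₀ - ∑ w ∈ T, prim w with hD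
  have hdeg : 2 * (genusFF K F : ℤ) - 2 < Divisor.degree D := by
    rw [hD, map_sub, map_nsmul, degree_prim', map_sum]
    simp only [degree_prim', Finset.sum_const, nsmul_eq_mul, mul_one, hn]
    push_cast
    omega
  have hsum : ∀ v : Place K F, (∑ w ∈ T, prim w) v = if v ∈ T then 1 else 0 := by
    intro v
    rw [Finsupp.finsetSum_apply]
    by_cases hv : v ∈ T
    · rw [if_pos hv, Finset.sum_eq_single v]
      · exact prim_apply_self v
      · intro w _ hwv
        exact prim_apply_of_ne (Ne.symm hwv)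
      · intro h; exact absurd hv h
    · rw [if_neg hv]
      refine Finset.sum_eq_zero fun w hw => ?_
      refine prim_apply_of_ne ?_
      rintro rfl
      exact hv hw
  have hDv : ∀ v : Place K F, v ≠ Q₀ → D v = - (if v ∈ T then 1 else 0) := by
    intro v hv
    rw [hD]
    simp only [Finsupp.coe_sub, Pi.sub_apply, Finsupp.coe_smul, Pi.smul_apply,
      prim_apply_of_ne hv, smul_zero, zero_sub, hsum]
  obtain ⟨f, h1, h2⟩ := exists_approx hdeg T (fun v => algebraMap K F (a v))
  have hval : ∀ v ∈ T, InMax v (f - algebraMap K F (a v)) := by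
    intro v hv
    have hvQ₀ : v ≠ Q₀ := fun h => hQ₀ (h ▸ hv)
    rcases h1 v hv with h | h
    · exact Or.inl h
    · rw [hDv v hvQ₀, if_pos hv, neg_neg] at h
      exact Or.inr (by omega)
  refine ⟨f, ?_, ?_⟩
  · intro v hv
    by_cases hvT : v ∈ T
    · exact ord_nonneg_of_inMax_sub (hval v hvT)
    · rcases h2 v hvT with h | h
      · rw [h, v.ord_zero]
      · rw [hDv v hv, if_neg hvT] at h
        simpa using h
  · intro Q hQ Q' hQ' c hc hc'
    have e1 : a Q = c := value_unique (hval Q hQ) hc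
    have e2 : a Q' = c := value_unique (hval Q' hQ') hc'
    exact ha Q hQ Q' hQ' (e1.trans e2.symm)

end Fermat.Agent.S37.H819
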