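import Fermat.Agent.S37.Rim.Assembly
import Fermat.Agent.S37.H819.RimGeneric

/-!
# S37 / RIM-LPSEP (helper819): the leaves `LP` and `SEP` of `node_rim` from NORMALITY

`NormalFinStatement A M` : every `z ∈ F_{M,k}` regular at all places where `j̄` is regular is the
reduction `ρ b` of some `b ∈ V` regular at all places `P` of `F_M` with `j(P) ∈ A`.
`NormalInfStatement A M` : every `z ∈ F_{M,k}` regular at all places where `1/j̄` is regular is
the reduction `ρ b` of some `b ∈ V` regular on the tube over `∞`.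

* `lp_of_normal`  : NORMAL ⟹ `Rim.LPStatement A M`,
* `sep_of_normal` : NORMAL ⟹ `Rim.SEPStatement A M`,
* `node_rim_of_normal` : `FCStatement` + NORMAL ⟹ `ReductionInputsModL A M`.

Proof: Riemann–Roch in `F_{M,k}` (`Lib.RR.H439`, `FF1` from `S18.H383.ff1_residue`).
-/

set_option autoImplicit false
set_option synthInstance.maxHeartbeats 400000

noncomputable section

namespace Fermat.Agent.S37.H819

open AlgebraicCurve ModularCurve HahnSeries IsLocalRing Fermat.Agent.S37.H940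
open Fermat.Agent.Lib.RR Fermat.Agent.S37.Rim

/-- **NORMAL, finite chart.** -/
def NormalFinStatement (A : ValuationSubring Qb) (M : ℕ) [NeZero M] : Prop :=
  ∀ z : FkM A M, (∀ Q : Place (kA A) (FkM A M), 0 ≤ Q.ord (xk A M) → 0 ≤ Q.ord z) →
    ∃ b : (ctx A M).V,
      (∀ (P : Place Qb (FM M)) (a : A), InMax P (xF M - algebraMap Qb (FM M) (a : Qb)) →
        0 ≤ P.ord (b : FM M)) ∧ (ctx A M).ρ b = z

/-- **NORMAL, chart at infinity.** -/
def NormalInfStatement (A : ValuationSubring Qb) (M : ℕ) [NeZero M] : Prop :=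
  ∀ z : FkM A M, (∀ Q : Place (kA A) (FkM A M), Q.ord (xk A M) ≤ 0 → 0 ≤ Q.ord z) →
    ∃ b : (ctx A M).V, (∀ P ∈ tube A M none, 0 ≤ P.ord (b : FM M)) ∧ (ctx A M).ρ b = z

variable (M ℓ : ℕ) [NeZero M] (hℓ : ℓ.Prime) (hℓM : ¬ ℓ ∣ M)
  (A : ValuationSubring Qb) (hA : A.LiesOverPrime ℓ)

/-- lifting of functions regular outside `Q₀` -/
theorem exists_lift (hfin : NormalFinStatement A M) (hinf : NormalInfStatement A M)
    (c : Option (kA A)) (Q₀ : Place (kA A) (FkM A M))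
    (hQ₀ : match c with
      | some _ => Q₀.ord (xk A M) < 0
      | none => 0 < Q₀.ord (xk A M))
    (z : FkM A M) (hz : ∀ v : Place (kA A) (FkM A M), v ≠ Q₀ → 0 ≤ v.ord z) :
    ∃ b : (ctx A M).V, (∀ P ∈ tube A M c, 0 ≤ P.ord (b : FM M)) ∧ (ctx A M).ρ b = z := by
  cases c with
  | some c =>
    have hQ₀' : Q₀.ord (xk A M) < 0 := hQ₀
    obtain ⟨b, hb, hρ⟩ := hfin z (fun Q hQ => hz Q (by rintro rfl; omega))
    refine ⟨b, ?_, hρ⟩
    rintro P ⟨a, -, ha⟩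
    exact hb P a ha
  | none =>
    have hQ₀' : 0 < Q₀.ord (xk A M) := hQ₀
    obtain ⟨b, hb, hρ⟩ := hinf z (fun Q hQ => hz Q (by rintro rfl; omega))
    exact ⟨b, hb, hρ⟩

include hℓ hℓM hA

/-- for `c ∈ k ∪ {∞}`: a place `Q₀` which is not over `c`, such that a function regular outside
`Q₀` is regular on the chart containing the points over `c`. -/
theorem exists_aux_place (c : Option (kA A)) :
    ∃ Q₀ : Place (kA A) (FkM A M), (∀ Q, IsPt A M c Q → Q ≠ Q₀) ∧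
      match c with
      | some _ => Q₀.ord (xk A M) < 0
      | none => 0 < Q₀.ord (xk A M) := by
  have hchar := hchar_residue M ℓ hℓ hℓM A hA
  have hx := transcendental_xk M ℓ hℓ hℓM A hA
  cases c with
  | some c =>
    obtain ⟨Q₀, hQ₀⟩ := Fermat.Agent.S18.H905.exists_place_ord_neg_fullC (kA A) M hchar _ hx
    refine ⟨Q₀, ?_, hQ₀⟩
    rintro Q hQ rfl
    have h1 : 0 ≤ Q.ord (xk A M) := ord_nonneg_of_inMax_sub (P := Q) hQ
    omega
  | none =>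
    obtain ⟨Q₀, hQ₀⟩ := Fermat.Agent.S18.H905.exists_place_ord_pos_fullC (kA A) M hchar _ hx
    refine ⟨Q₀, ?_, hQ₀⟩
    rintro Q hQ rfl
    have h1 : Q.ord (xk A M) < 0 := hQ
    omega

/-- **LEAF LP from NORMAL.** -/
theorem lp_of_normal (hfin : NormalFinStatement A M) (hinf : NormalInfStatement A M) :
    LPStatement A M := by
  have : IsAlgClosed (kA A) := Fermat.Agent.S18.H9.resAlgClosed _ A
  have : FF1 (kA A) (FkM A M) := Fermat.Agent.S18.H383.ff1_residue M ℓ hℓ hℓM A hA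
  intro c Q hQ
  obtain ⟨𝔊, -, h𝔊⟩ := exists_pts M ℓ hℓ hℓM A hA c
  obtain ⟨Q₀, hQ₀, hQ₀c⟩ := exists_aux_place M ℓ hℓ hℓM A hA c
  have hQ₀T : Q₀ ∉ 𝔊 := fun h => hQ₀ Q₀ ((h𝔊 Q₀).1 h) rfl
  obtain ⟨z, h1, h2, h3⟩ := exists_localParam 𝔊 Q₀ hQ₀T Q ((h𝔊 Q).2 hQ)
  obtain ⟨b, hb, hρ⟩ := exists_lift M A hfin hinf c Q₀ hQ₀c z h3
  refine ⟨b, hb, ?_, ?_⟩
  · rw [hρ]; exact h1
  · intro Q' hQ' hne
    rw [hρ]
    exact h2 Q' ((h𝔊 Q').2 hQ') hne

/-- **LEAF SEP from NORMAL.** -/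
theorem sep_of_normal (hfin : NormalFinStatement A M) (hinf : NormalInfStatement A M) :
    SEPStatement A M := by
  have : IsAlgClosed (kA A) := Fermat.Agent.S18.H9.resAlgClosed _ A
  have : FF1 (kA A) (FkM A M) := Fermat.Agent.S18.H383.ff1_residue M ℓ hℓ hℓM A hA
  intro c
  obtain ⟨𝔊, -, h𝔊⟩ := exists_pts M ℓ hℓ hℓM A hA c
  obtain ⟨Q₀, hQ₀, hQ₀c⟩ := exists_aux_place M ℓ hℓ hℓM A hA c
  have hQ₀T : Q₀ ∉ 𝔊 := fun h => hQ₀ Q₀ ((h𝔊 Q₀).1 h) rfl
  obtain ⟨z, h1, h2⟩ := exists_separating 𝔊 Q₀ hQ₀T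
  obtain ⟨b, hb, hρ⟩ := exists_lift M A hfin hinf c Q₀ hQ₀c z h1
  refine ⟨b, hb, ?_⟩
  intro Q Q' hQ hQ' a ha ha'
  rw [hρ] at ha ha'
  exact h2 Q ((h𝔊 Q).2 hQ) Q' ((h𝔊 Q').2 hQ') a ha ha'

/-- **node_rim from `FC` and NORMAL.** -/
theorem node_rim_of_normal (hFC : FCStatement A M) (hfin : NormalFinStatement A M)
    (hinf : NormalInfStatement A M) : ReductionInputsModL A M :=
  node_rim_of_leaves M ℓ hℓ hℓM A hA hFC (lp_of_normal M ℓ hℓ hℓM A hA hfin hinf)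
    (sep_of_normal M ℓ hℓ hℓM A hA hfin hinf)

end Fermat.Agent.S37.H819
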