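import Fermat.Agent.S37.Rim.H939.LPSEP
import Fermat.Agent.S37.H448.AscentMod
import Fermat.Agent.S37.H817.GalCharts
import Fermat.Agent.S37.H459.ChartGen

/-!
# S37 / RIM-NORMAL, the adapter (helper819): place-language normality from `(H3)` in `IntElt` form

`LiftFin A M` : every `z ∈ F_{M,k}` integral over `k[j̄]` (as a `q`-series, helper448's
`evalSer`-form) is `c.sp` for a `Core.IntElt c` with `c.IsFin`   (= output of
`H448.lift_fin_of_base_liesOver`).   `LiftInf A M` : same with `1/j̄`, `c.IsInf`.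

* `normFin_of_lift : LiftFin A M → Rim.H939.NormFin A M`
* `normInf_of_lift : LiftInf A M → Rim.H939.NormInf A M`
* `node_rim_of_fc_lift : FCStatement A M → LiftFin A M → LiftInf A M → ReductionInputsModL A M`
* `node_rim_of_fc_base` : the same from the base statements over `𝔽_ℓ` (hypotheses `hbase` of
  `H448.lift_fin_of_base_liesOver`, `H448.lift_inf_of_base_liesOver`).
-/

set_option autoImplicit false
set_option synthInstance.maxHeartbeats 400000

noncomputable section

namespace Fermat.Agent.S37.H819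

open AlgebraicCurve ModularCurve HahnSeries IsLocalRing Fermat.Agent.S37.H940
open Fermat.Agent.Lib.RR Fermat.Agent.S37.Rim Fermat.Agent.S37.Core

section Generic

variable {K F : Type*} [Field K] [Field F] [Algebra K F]

/-- integral over `K[x]` ⟹ root of a monic polynomial with coefficients polynomials in `x` -/
theorem isIntegralElem_aeval_of_isIntegral (x z : F) (h : IsIntegral (Algebra.adjoin K {x}) z) :
    (Polynomial.aeval (R := K) x).toRingHom.IsIntegralElem z := by
  obtain ⟨p, hp, h0⟩ := h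
  set x' : Algebra.adjoin K {x} := ⟨x, Algebra.self_mem_adjoin_singleton K x⟩ with hx'
  set φ : Polynomial K →+* Algebra.adjoin K {x} := (Polynomial.aeval (R := K) x').toRingHom
    with hφ
  have hsurj : Function.Surjective φ := by
    rintro ⟨y, hy⟩
    rw [Algebra.adjoin_singleton_eq_range_aeval] at hy
    obtain ⟨q, hq⟩ := hy
    refine ⟨q, Subtype.ext ?_⟩
    show ((Polynomial.aeval x' q : Algebra.adjoin K {x}) : F) = y
    rw [← Subalgebra.aeval_coe]
    exact hq
  have hcomp : (algebraMap (Algebra.adjoin K {x}) F).comp φ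
      = (Polynomial.aeval (R := K) x).toRingHom := by
    refine Polynomial.ringHom_ext (fun a => ?_) ?_
    · show ((Polynomial.aeval x' (Polynomial.C a) : Algebra.adjoin K {x}) : F)
        = Polynomial.aeval x (Polynomial.C a)
      rw [Polynomial.aeval_C, Polynomial.aeval_C]
      rfl
    · show ((Polynomial.aeval x' Polynomial.X : Algebra.adjoin K {x}) : F)
        = Polynomial.aeval x Polynomial.X
      rw [Polynomial.aeval_X, Polynomial.aeval_X]
  have hlift : p ∈ Polynomial.lifts φ := by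
    rw [Polynomial.mem_lifts]
    exact Polynomial.map_surjective φ hsurj p
  obtain ⟨q, hq, -, hqm⟩ := Polynomial.lifts_and_natDegree_eq_and_monic hlift hp
  refine ⟨q, hqm, ?_⟩
  rw [← hcomp, ← Polynomial.eval₂_map, hq]
  exact h0

end Generic

variable (A : ValuationSubring Qb) (M : ℕ) [NeZero M]

/-- **(H3), finite chart, `IntElt` form** (output shape of `H448.lift_fin_of_base_liesOver`). -/
def LiftFin : Prop :=
  ∀ z : FkM A M,
    (Fermat.Agent.S37.H448.evalSer (kA A) (jqModC (kA A))).IsIntegralElem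
      (z : LaurentSeries (kA A)) →
    ∃ c : IntElt A M, c.IsFin ∧ c.sp = z

/-- **(H3), chart at infinity, `IntElt` form.** -/
def LiftInf : Prop :=
  ∀ z : FkM A M,
    (Fermat.Agent.S37.H448.evalSer (kA A) (jqModC (kA A))⁻¹).IsIntegralElem
      (z : LaurentSeries (kA A)) →
    ∃ c : IntElt A M, c.IsInf ∧ c.sp = z

variable {A M}

omit [NeZero M] in
/-- an `IntElt` as an element of `V`, with its reduction -/
theorem exists_V_of_intElt (c : IntElt A M) :
    ∃ b : (ctx A M).V, (b : FM M) = c.gen ∧ (ctx A M).ρ b = c.sp := by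
  set 𝔇 := qData A (residue A) (FM M) (FkM A M) residue_surjective
    (residue_eq_zero_iff_not_isUnit A) with h𝔇
  have hint : IsIntQ A (residue A) (FM M) (FkM A M) c.gen := ⟨c.y, rfl, c.memk⟩
  set a : 𝔇.O := ⟨c.gen, hint⟩ with ha
  refine ⟨𝔇.ofO a, rfl, ?_⟩
  show 𝔇.ρ (𝔇.ofO a) = _
  rw [𝔇.ρ_ofO]
  apply Subtype.ext
  exact coe_redQ A (residue A) (FM M) (FkM A M) _ (y := c.y) rfl

theorem jElt_gen_eq_xF : (Fermat.Agent.S37.H817.jElt A M).gen = xF M := by
  apply Subtype.ext
  show coeffMap A.subtype (jqModC A) = coeffEmb Qb jq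
  rw [Fermat.Agent.S37.H817.coeffMap_jqModC, ← jqModC_rat]
  exact (Fermat.Agent.S37.H817.coeffMap_jqModC ℚ (algebraMap ℚ Qb)).symm

theorem hasValue_iff_inMax {K F : Type*} [Field K] [Field F] [Algebra K F] (P : Place K F)
    (f : F) (b : K) : HasValue P f b ↔ InMax P (f - algebraMap K F b) :=
  inMax_iff_mem_nonunits.symm

/-- elements integral over `A[j]` are regular at the places with `j(P) ∈ A` -/
theorem ord_nonneg_of_isFin (c : IntElt A M) (hc : c.IsFin) (P : Place Qb (FM M)) (a : A)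
    (ha : InMax P (xF M - algebraMap Qb (FM M) (a : Qb))) : 0 ≤ P.ord (c.gen : FM M) := by
  have hx : HasValue P (Fermat.Agent.S37.H817.jElt A M).gen (a : Qb) := by
    rw [hasValue_iff_inMax, jElt_gen_eq_xF]
    exact ha
  have := Fermat.Agent.S37.H817.gen_mem_of_isIntOver
    ((Fermat.Agent.S37.H817.isIntOver_jElt_iff c).2 hc) hx
  exact ord_nonneg_of_mem P this

/-- on the tube over `∞` the function `1/j` has a value in `A` -/
theorem exists_value_inv_of_mem_tube_none (P : Place Qb (FM M)) (hP : P ∈ tube A M none) :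
    ∃ a : A, InMax P ((xF M)⁻¹ - algebraMap Qb (FM M) (a : Qb)) := by
  have : FF1 Qb (FM M) := H864.ff1_modularFunctionFieldBar M
  have hP' : ¬ ∃ a : A, InMax P (xF M - algebraMap Qb (FM M) (a : Qb)) := hP
  by_cases h0 : 0 ≤ P.ord (xF M)
  · obtain ⟨c, hc⟩ := exists_inMax_sub_of_deg (K := Qb) FF1.deg_eq_one P (xF M) h0
    have hcA : c ∉ A := fun h => hP' ⟨⟨c, h⟩, hc⟩
    have hc0 : c ≠ 0 := by
      rintro rfl
      exact hcA A.zero_mem
    have hinv : c⁻¹ ∈ A := (A.mem_or_inv_mem c).resolve_left hcA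
    refine ⟨⟨c⁻¹, hinv⟩, ?_⟩
    have hord : P.ord (xF M) = 0 := ord_eq_zero_of_inMax_sub hc hc0
    have hx0 : xF M ≠ 0 := by
      intro h
      rw [h, zero_sub] at hc
      have := (inMax_algebraMap_iff (P := P)).1 (by simpa using hc.neg)
      exact hc0 this
    have h1 : 0 ≤ P.ord ((xF M)⁻¹) := by rw [P.ord_inv, hord]; norm_num
    have h2 := ((hc.mul_of_ord_nonneg h1).const_mul (-c⁻¹))
    have e : algebraMap Qb (FM M) (-c⁻¹) * ((xF M - algebraMap Qb (FM M) c) * (xF M)⁻¹)
        = (xF M)⁻¹ - algebraMap Qb (FM M) (c⁻¹) := by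
      have hc' : algebraMap Qb (FM M) c ≠ 0 := by
        rwa [Ne, map_eq_zero_iff _ (algebraMap Qb (FM M)).injective]
      rw [map_neg, map_inv₀]
      field_simp
      ring
    rw [e] at h2
    exact h2
  · refine ⟨0, ?_⟩
    have : 0 < P.ord ((xF M)⁻¹) := by rw [P.ord_inv]; omega
    simpa using inMax_of_ord_pos this

/-- elements integral over `A[1/j]` are regular on the tube over `∞` -/
theorem ord_nonneg_of_isInf (c : IntElt A M) (hc : c.IsInf) (P : Place Qb (FM M))
    (hP : P ∈ tube A M none) : 0 ≤ P.ord (c.gen : FM M) := by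
  obtain ⟨a, ha⟩ := exists_value_inv_of_mem_tube_none P hP
  have hx : HasValue P (Fermat.Agent.S37.H817.jInvElt A M).gen (a : Qb) := by
    rw [hasValue_iff_inMax, Fermat.Agent.S37.H817.jInvElt_gen, jElt_gen_eq_xF]
    exact ha
  have := Fermat.Agent.S37.H817.gen_mem_of_isIntOver
    ((Fermat.Agent.S37.H817.isIntOver_jInvElt_iff c).2 hc) hx
  exact ord_nonneg_of_mem P this

omit [NeZero M] in
/-- transfer of integrality to `q`-series -/
theorem isIntegralElem_evalSer (x z : FkM A M)
    (h : IsIntegral (Algebra.adjoin (kA A) {x}) z) :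
    (Fermat.Agent.S37.H448.evalSer (kA A) (x : LaurentSeries (kA A))).IsIntegralElem
      (z : LaurentSeries (kA A)) := by
  obtain ⟨q, hqm, hq⟩ := isIntegralElem_aeval_of_isIntegral x z h
  refine ⟨q, hqm, ?_⟩
  have hcomp : ((FkM A M).val : FkM A M →+* LaurentSeries (kA A)).comp
      (Polynomial.aeval (R := kA A) x).toRingHom
      = Fermat.Agent.S37.H448.evalSer (kA A) (x : LaurentSeries (kA A)) := by
    refine Polynomial.ringHom_ext (fun a => ?_) ?_
    · show ((Polynomial.aeval x (Polynomial.C a) : FkM A M) : LaurentSeries (kA A))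
        = Polynomial.eval₂ (HahnSeries.C : kA A →+* LaurentSeries (kA A)) _ (Polynomial.C a)
      rw [Polynomial.aeval_C, Polynomial.eval₂_C]
      show algebraMap (kA A) (LaurentSeries (kA A)) a = HahnSeries.C a
      rw [algebraMap_laurentSeries_eq_single]
      rfl
    · show ((Polynomial.aeval x Polynomial.X : FkM A M) : LaurentSeries (kA A))
        = Polynomial.eval₂ (HahnSeries.C : kA A →+* LaurentSeries (kA A)) _ Polynomial.X
      rw [Polynomial.aeval_X, Polynomial.eval₂_X]
  rw [← hcomp]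
  have := congrArg ((FkM A M).val : FkM A M →+* LaurentSeries (kA A)) hq
  rw [Polynomial.hom_eval₂, map_zero] at this
  exact this

section Main

variable (M) (ℓ : ℕ) (hℓ : ℓ.Prime) (hℓM : ¬ ℓ ∣ M) (A) (hA : A.LiesOverPrime ℓ)

include hℓ hℓM hA

/-- **NORMAL (finite chart, place language) from (H3).** -/
theorem normFin_of_lift (h : LiftFin A M) : Fermat.Agent.S37.Rim.H939.NormFin A M := by
  intro z hz
  have hchar := hchar_residue M ℓ hℓ hℓM A hA
  have hx := transcendental_xk M ℓ hℓ hℓM A hA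
  have := Fermat.Agent.S18.H905.finite_fullC (kA A) M hchar (xk A M) hx
  have hint : IsIntegral (Algebra.adjoin (kA A) {xk A M}) z :=
    Fermat.Agent.S37.H459.isIntegral_of_forall_ord_nonneg hx hz
  obtain ⟨c, hc, hcz⟩ := h z (isIntegralElem_evalSer (xk A M) z hint)
  obtain ⟨b, hb, hρ⟩ := exists_V_of_intElt c
  refine ⟨b, ?_, by rw [hρ, hcz]⟩
  rintro c₀ P ⟨a, -, ha⟩
  rw [hb]
  exact ord_nonneg_of_isFin c hc P a ha

/-- **NORMAL (chart at infinity, place language) from (H3).** -/
theorem normInf_of_lift (h : LiftInf A M) : Fermat.Agent.S37.Rim.H939.NormInf A M := by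
  intro z hz
  have hchar := hchar_residue M ℓ hℓ hℓM A hA
  have hx := transcendental_xk M ℓ hℓ hℓM A hA
  have hx0 : xk A M ≠ 0 := ne_zero_of_transcendental hx
  have hxi : Transcendental (kA A) (xk A M)⁻¹ := by
    intro halg
    exact hx (by simpa using halg.inv)
  have := Fermat.Agent.S18.H905.finite_fullC (kA A) M hchar (xk A M)⁻¹ hxi
  have hint : IsIntegral (Algebra.adjoin (kA A) {(xk A M)⁻¹}) z := by
    refine Fermat.Agent.S37.H459.isIntegral_of_forall_ord_nonneg hxi fun v hv => hz v ?_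
    rw [v.ord_inv] at hv
    omega
  have hcoe : (((xk A M)⁻¹ : FkM A M) : LaurentSeries (kA A)) = (jqModC (kA A))⁻¹ := rfl
  have h1 := isIntegralElem_evalSer (xk A M)⁻¹ z hint
  rw [hcoe] at h1
  obtain ⟨c, hc, hcz⟩ := h z h1
  obtain ⟨b, hb, hρ⟩ := exists_V_of_intElt c
  refine ⟨b, ?_, by rw [hρ, hcz]⟩
  intro P hP
  rw [hb]
  exact ord_nonneg_of_isInf c hc P hP

/-- **node_rim from `FC` and (H3) in `IntElt` form.** -/
theorem node_rim_of_fc_lift (hFC : FCStatement A M) (hfin : LiftFin A M) (hinf : LiftInf A M) :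
    ReductionInputsModL A M :=
  Fermat.Agent.S37.Rim.H939.node_rim_of_fc_norm M ℓ hℓ hℓM A hA hFC
    (normFin_of_lift A M ℓ hℓ hℓM hA hfin) (normInf_of_lift A M ℓ hℓ hℓM hA hinf)

end Main

/-- **node_rim from `FC` and (H3) over `𝔽_ℓ`** (hypotheses `hbase` of helper448's ascent). -/
theorem node_rim_of_fc_base (A : ValuationSubring Qb) (M : ℕ) [NeZero M] (ℓ : ℕ)
    [Fact ℓ.Prime] (hℓM : ¬ ℓ ∣ M) (hA : A.LiesOverPrime ℓ) (hFC : FCStatement A M)
    (hbase_fin : ∀ (φ : ZMod ℓ →+* IsLocalRing.ResidueField A) (w : LaurentSeries (ZMod ℓ)),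
      w ∈ modularFunctionFieldFullC (ZMod ℓ) M →
      (Fermat.Agent.S37.H448.evalSer (ZMod ℓ) (jqModC (ZMod ℓ))).IsIntegralElem w →
      ∃ c : IntElt A M, c.IsFin ∧ coeffMap (IsLocalRing.residue A) c.y = coeffMap φ w)
    (hbase_inf : ∀ (φ : ZMod ℓ →+* IsLocalRing.ResidueField A) (w : LaurentSeries (ZMod ℓ)),
      w ∈ modularFunctionFieldFullC (ZMod ℓ) M →
      (Fermat.Agent.S37.H448.evalSer (ZMod ℓ) (jqModC (ZMod ℓ))⁻¹).IsIntegralElem w →
      ∃ c : IntElt A M, c.IsInf ∧ coeffMap (IsLocalRing.residue A) c.y = coeffMap φ w) :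
    ReductionInputsModL A M :=
  node_rim_of_fc_lift A M ℓ Fact.out hℓM hA hFC
    (fun z hz => Fermat.Agent.S37.H448.lift_fin_of_base_liesOver A hA hbase_fin z hz)
    (fun z hz => Fermat.Agent.S37.H448.lift_inf_of_base_liesOver A hA hbase_inf z hz)

end Fermat.Agent.S37.H819
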